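/-
S28 / [A-Φ], [A-W] (hedge, helper988): discharge the three bridge hypotheses of helper807's
`nonempty_modPolyData_of` / `nonempty_unitPolyData_of` with helper685's analytic foundation.
-/
import Mathlib
import Fermat.Agent.S28.Defs
import Fermat.Agent.S28.H88.Theta
import Fermat.Agent.S28.H685.JFun
import Fermat.Agent.S28.H807.ModPoly

set_option autoImplicit false

noncomputable section

open UpperHalfPlane Function Complex HahnSeries ModularForm SlashInvariantForm ModularCurve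
open scoped Topology Manifold MatrixGroups

namespace Fermat.Agent.S28.H988

local notation "𝕢" => Periodic.qParam

/-- helper685's `HasQLaurent 1` is helper807's `HasQExp`. -/
theorem hasQExp_of_hasQLaurent {c : LaurentSeries ℂ} {F : ℍ → ℂ}
    (h : H685.HasQLaurent 1 F c) : H807.HasQExp c F :=
  (H807.hasQExp_iff c F).mpr h

theorem hasQLaurent_of_hasQExp {c : LaurentSeries ℂ} {F : ℍ → ℂ}
    (h : H807.HasQExp c F) : H685.HasQLaurent 1 F c :=
  (H807.hasQExp_iff c F).mp h

/-- (B-P) the level-one polynomial principle. -/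
theorem polyPrinciple : H807.PolyPrinciple := by
  intro c F hF hS
  obtain ⟨P, hP, -⟩ := H685.exists_polynomial_of_S_invariant' F c (hasQLaurent_of_hasQExp hF) hS
  refine ⟨P, ?_⟩
  rw [hP, H807.evalJ, Polynomial.aeval_def]
  congr 1
  ext1 a
  exact H685.algebraMap_eq_C a

/-- `j` is invariant under the full modular group. -/
theorem jFun_smul (γ : SL(2, ℤ)) (τ : ℍ) : H685.jFun (γ • τ) = H685.jFun τ := by
  have hγ : ((γ : SL(2, ℤ)) : GL (Fin 2) ℝ) ∈ 𝒮ℒ := ⟨γ, rfl⟩
  have h1 : E₄ (γ • τ) = _ := slash_action_eqn'' E₄ hγ τ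
  have h2 : CuspForm.discriminant (γ • τ) = _ :=
    slash_action_eqn'' CuspForm.discriminant hγ τ
  have hd : denom ((γ : SL(2, ℤ)) : GL (Fin 2) ℝ) τ ≠ 0 := denom_ne_zero _ _
  have hΔ := discriminant_ne_zero τ
  rw [CuspForm.coe_discriminant] at h2
  rw [H685.jFun, H685.jFun]
  rw [h1, h2]
  rw [div_eq_div_iff (mul_ne_zero (zpow_ne_zero _ hd) hΔ) hΔ]
  rw [mul_pow, ← zpow_natCast, ← zpow_mul]
  norm_num
  ring

/-- (B-J) -/
theorem hasQExp_jFun : H807.HasQExp (jqModC ℂ) H685.jFun :=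
  hasQExp_of_hasQLaurent H685.hasQLaurent_jFun

/-- **[A-Φ]** (statement = the captain's stub `nonempty_modPolyData`). -/
theorem nonempty_modPolyData (p : ℕ) [NeZero p] (hp : p.Prime) : Nonempty (ModPolyData p) :=
  H807.nonempty_modPolyData_of p hp polyPrinciple H685.jFun jFun_smul hasQExp_jFun

/-! ### The discriminant -/

theorem discriminant_smul (γ : SL(2, ℤ)) (τ : ℍ) :
    ModularForm.discriminant (γ • τ) = (denom γ τ) ^ 12 * ModularForm.discriminant τ := by
  have hγ : ((γ : SL(2, ℤ)) : GL (Fin 2) ℝ) ∈ 𝒮ℒ := ⟨γ, rfl⟩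
  have h2 : CuspForm.discriminant (γ • τ) = _ :=
    slash_action_eqn'' CuspForm.discriminant hγ τ
  rw [CuspForm.coe_discriminant] at h2
  rw [h2]
  norm_cast

theorem deltaL_C_eq : deltaL ℂ =
    HahnSeries.single (1 : ℤ) (1 : ℂ) * HahnSeries.ofPowerSeries ℤ ℂ H685.dedekindEtaUnitC := rfl

theorem deltaInvL_C_eq : deltaInvL ℂ =
    HahnSeries.single (-1 : ℤ) (1 : ℂ) * HahnSeries.ofPowerSeries ℤ ℂ H685.dedekindEtaUnitC⁻¹ := by
  rw [H685.dedekindEtaUnitC_inv]
  rfl

/-- (B-Δ) -/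
theorem hasQExp_discriminant :
    H807.HasQExp (coeffMap (Int.castRingHom ℂ) (deltaL ℤ)) (fun τ => ModularForm.discriminant τ) := by
  rw [h88_coeffMap_deltaL, deltaL_C_eq]
  apply hasQExp_of_hasQLaurent
  rw [H685.hasQLaurent_single_mul_iff]
  refine H685.hasQExp_dedekindEtaUnitC.congr_fun fun τ => ?_
  have hq : 𝕢 1 (τ : ℂ) ≠ 0 := Periodic.qParam_ne_zero _
  rw [H685.discriminant_eq_etaC]
  simp only [zpow_neg, zpow_one]
  field_simp

theorem constantCoeff_dedekindEtaUnitC_ne :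
    PowerSeries.coeff 0 H685.dedekindEtaUnitC ≠ 0 := by
  rw [H685.dedekindEtaUnitC, PowerSeries.coeff_map,
    PowerSeries.coeff_zero_eq_constantCoeff, ModularCurve.constantCoeff_dedekindEtaUnit]
  simp

/-- (B-Δ⁻¹) -/
theorem hasQExp_discriminant_inv :
    H807.HasQExp (coeffMap (Int.castRingHom ℂ) (deltaInvL ℤ))
      (fun τ => (ModularForm.discriminant τ)⁻¹) := by
  rw [h88_coeffMap_deltaInvL, deltaInvL_C_eq]
  apply hasQExp_of_hasQLaurent
  rw [H685.hasQLaurent_single_mul_iff]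
  have hinv := H685.HasQExp.inv one_pos H685.hasQExp_dedekindEtaUnitC
    (fun τ => pow_ne_zero 24 (H685.etaC_qParam_ne_zero τ)) constantCoeff_dedekindEtaUnitC_ne
  refine hinv.congr_fun fun τ => ?_
  have hq : 𝕢 1 (τ : ℂ) ≠ 0 := Periodic.qParam_ne_zero _
  have hη := H685.etaC_qParam_ne_zero τ
  rw [H685.discriminant_eq_etaC]
  simp only [neg_neg, zpow_one]
  field_simp

/-- **[A-W]** (statement = the captain's stub `nonempty_unitPolyData`). -/
theorem nonempty_unitPolyData (p : ℕ) [NeZero p] (hp : p.Prime) : Nonempty (UnitPolyData p) :=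
  H807.nonempty_unitPolyData_of p hp polyPrinciple (fun τ => ModularForm.discriminant τ)
    (fun τ => discriminant_ne_zero τ) discriminant_smul hasQExp_discriminant
    hasQExp_discriminant_inv

end Fermat.Agent.S28.H988

end
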